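import Fermat.Agent.Root.SummaryHasseMinkowskiNF
import Fermat.Agent.Root.SummaryThreeSquares

/-!
# Sums of squares in the completions of a number field
-/

set_option autoImplicit false
set_option linter.style.haveILetI false

noncomputable section

universe u

open NumberField IsDedekindDomain WithZero
open FA.QuadFormsNF
open FA.ArtinRec
open FA.HasseCyclic

namespace Fermat.Agent.HilbertSiegel

/-- `x` is a sum of two squares. -/
def IsTwoSquares {F : Type*} [CommRing F] (x : F) : Prop := ∃ a b : F, a ^ 2 + b ^ 2 = x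

/-- If `-1` is a sum of two squares every element is a sum of three. -/
theorem three_of_level_two {F : Type*} [Field F] (h2 : (2 : F) ≠ 0) (h : IsTwoSquares (-1 : F))
    (x : F) : ∃ a b c : F, a ^ 2 + b ^ 2 + c ^ 2 = x := by
  obtain ⟨p, q, hpq⟩ := h
  refine ⟨(x + 1) / 2, p * ((x - 1) / 2), q * ((x - 1) / 2), ?_⟩
  calc ((x + 1) / 2) ^ 2 + (p * ((x - 1) / 2)) ^ 2 + (q * ((x - 1) / 2)) ^ 2
      = ((x + 1) / 2) ^ 2 + (p ^ 2 + q ^ 2) * ((x - 1) / 2) ^ 2 := by ring
    _ = x := by rw [hpq]; field_simp; ring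

variable {K : Type u} [Field K] [NumberField K]

/-- At an odd prime `-1` is a sum of two squares. -/
theorem neg_one_two_odd {v : HeightOneSpectrum (𝓞 K)} (h2 : (2 : 𝓞 K) ∉ v.asIdeal) :
    IsTwoSquares (-1 : v.adicCompletion K) := by
  have hord : ord v (-1 : Kˣ) = 0 := by
    have h : ord v ((-1 : Kˣ) * -1) = ord v (-1 : Kˣ) + ord v (-1 : Kˣ) := ord_mul v _ _
    rw [neg_mul_neg, one_mul, ord_one] at h
    omega
  obtain ⟨x, y, h⟩ := exists_conic_of_units h2 hord hord
  refine ⟨x, y, ?_⟩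
  rw [Units.val_neg, Units.val_one, map_neg, map_one] at h
  linear_combination -h

/-- With `√5` in the field `-1` is a sum of two squares in every completion. -/
theorem neg_one_two_sqrt_five {r : K} (hr : r ^ 2 = 5) (v : HeightOneSpectrum (𝓞 K)) :
    IsTwoSquares (-1 : v.adicCompletion K) := by
  by_cases h2 : (2 : 𝓞 K) ∈ v.asIdeal
  swap
  · exact neg_one_two_odd h2
  obtain ⟨U, hU, hUsq⟩ := exists_isSquare_mul_near v (one_ne_zero (α := v.adicCompletion K))
  obtain ⟨k, hk⟩ := exists_exp_subset v hU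
  have hp : 8 ≤ 2 ^ (k + 3) := by
    rw [pow_add]; exact le_mul_of_one_le_left (Nat.zero_le _) (Nat.one_le_two_pow)
  have hdvd : 8 ∣ 2 ^ (k + 3) := Dvd.intro_left _ (pow_add 2 k 3).symm
  obtain ⟨x, y, z, hxyz⟩ := (FA.Summary.three_squares (2 ^ (k + 3) - 5)).2 (by
    rintro ⟨a, b, hab⟩
    cases a with
    | zero => omega
    | succ a =>
      obtain ⟨c, hc⟩ : 2 ∣ 4 ^ (a + 1) * (8 * b + 7) :=
        Dvd.dvd.mul_right (by rw [pow_succ]; exact Dvd.dvd.mul_left (by norm_num) _) _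
      rw [hc] at hab
      omega)
  rw [Nat.cast_sub (by omega)] at hxyz
  push_cast at hxyz
  have hzodd : Odd z := by
    rcases Int.even_or_odd z with hz | hz
    · exfalso
      obtain ⟨m, rfl⟩ := hz
      obtain ⟨i, hi⟩ := Int.even_or_odd' x
      obtain ⟨j, hj⟩ := Int.even_or_odd' y
      have h8 : (8 : ℤ) ∣ (2 : ℤ) ^ (k + 3) := ⟨2 ^ k, by rw [pow_add]; ring⟩
      obtain ⟨e, he⟩ := h8
      rcases hi with rfl | rfl <;> rcases hj with rfl | rfl <;> ring_nf at hxyz he <;> omega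
    · exact hz
  obtain ⟨w, hw⟩ : ∃ w : ℤ, z ^ 2 + 5 = 2 * (2 * w + 1) := by
    obtain ⟨m, rfl⟩ := hzodd
    obtain ⟨e, he⟩ := Int.even_mul_succ_self m
    exact ⟨2 * e + 1, by linear_combination 4 * he⟩
  set g := algebraMap K (v.adicCompletion K)
  have hwu : Valued.v (g ((2 * w + 1 : ℤ) : K)) = 1 := by
    rw [valued_algebraMap, ← map_intCast (algebraMap (𝓞 K) K),
      HeightOneSpectrum.valuation_of_algebraMap, HeightOneSpectrum.intValuation_eq_one_iff]
    intro hmem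
    push_cast at hmem
    exact v.isPrime.ne_top ((Ideal.eq_top_iff_one _).2 (by
      simpa using v.asIdeal.sub_mem hmem (v.asIdeal.mul_mem_right (w : 𝓞 K) h2)))
  have hsmall : Valued.v (g ((2 : K) ^ (k + 2))) ≤ exp (-(k : ℤ)) := by
    rw [valued_algebraMap, show (2 : K) ^ (k + 2) = algebraMap (𝓞 K) K ((2 : 𝓞 K) ^ (k + 2)) by
      simp [map_ofNat],
      HeightOneSpectrum.valuation_of_algebraMap, HeightOneSpectrum.intValuation_le_pow_iff_mem]
    exact Ideal.pow_le_pow_right (by omega) (Ideal.pow_mem_pow h2 _)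
  have hW : ((2 * w + 1 : ℤ) : K) ≠ 0 := Int.cast_ne_zero.2 (by omega)
  have hD : (z : K) ^ 2 + r ^ 2 = 2 * ((2 * w + 1 : ℤ) : K) := by
    rw [hr]; exact_mod_cast hw
  obtain ⟨s, hs0, hs⟩ := hUsq _ (hk (1 - g ((2 : K) ^ (k + 2) / ((2 * w + 1 : ℤ) : K))) (by
    rw [sub_sub_cancel_left, Valuation.map_neg, map_div₀, map_div₀, hwu, div_one]
    exact hsmall))
  rw [one_mul] at hs
  set D := g ((z : K) ^ 2 + r ^ 2) with hDd
  have hD0 : D ≠ 0 := by
    rw [hDd, map_ne_zero, hD]; exact mul_ne_zero two_ne_zero hW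
  have hsum : g ((x : K) ^ 2 + (y : K) ^ 2) = -(s ^ 2) * D := by
    have h : (x : K) ^ 2 + (y : K) ^ 2 = (2 : K) ^ (k + 3) - ((z : K) ^ 2 + r ^ 2) := by
      have : (((2 : ℤ) ^ (k + 3) - 5 : ℤ) : K) = ((x ^ 2 + y ^ 2 + z ^ 2 : ℤ) : K) := by rw [hxyz]
      push_cast at this
      rw [hr]
      linear_combination -this
    rw [← hs, hDd, ← map_one g, ← map_sub, ← map_neg, ← map_mul]
    congr 1
    rw [h, hD, pow_succ (2 : K) (k + 2)]
    field_simp
    ring
  refine ⟨(g x * g z + g y * g r) / (s * D), (g x * g r - g y * g z) / (s * D), ?_⟩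
  have hDe : D = g z ^ 2 + g r ^ 2 := by rw [hDd, map_add, map_pow, map_pow]
  rw [map_add, map_pow, map_pow] at hsum
  field_simp
  rw [hDe] at hsum ⊢
  linear_combination (g z ^ 2 + g r ^ 2) * hsum

end Fermat.Agent.HilbertSiegel
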