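import Fermat.Agent.HilbertSiegel.Local
import Mathlib.Algebra.Ring.SumsOfSquares

/-!
# Three squares in fields containing `√5`
-/

set_option autoImplicit false
set_option linter.style.haveILetI false

noncomputable section

universe u

open NumberField IsDedekindDomain

namespace Fermat.Agent.HilbertSiegel

variable {K : Type u} [Field K] [NumberField K]

/-- If `5` is a square an element nowhere negative is a sum of three squares. -/
theorem three_squares_sqrt_five {r : K} (hr : r ^ 2 = 5) (q : K) :
    (∃ x : Fin 3 → K, ∑ i, x i ^ 2 = q) ↔ ∀ φ : K →+* ℝ, 0 ≤ φ q := by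
  constructor
  · rintro ⟨x, rfl⟩ φ
    rw [map_sum]
    exact Finset.sum_nonneg fun i _ => by rw [map_pow]; exact sq_nonneg _
  intro h
  obtain ⟨x, hx⟩ := (FA.Summary.representation_numberField (a := fun _ : Fin 3 => (1 : K))
    (fun _ => one_ne_zero) q).2 ⟨fun v => by
      obtain ⟨a, b, c, habc⟩ := three_of_level_two (FA.QuadFormsNF.two_ne_zero_completion v)
        (neg_one_two_sqrt_five hr v) (algebraMap K (v.adicCompletion K) q)
      exact ⟨![a, b, c], by simpa [Fin.sum_univ_three] using habc⟩,
      fun φ => ⟨![Real.sqrt (φ q), 0, 0], by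
        simp [Fin.sum_univ_three, Real.sq_sqrt (h φ)]⟩⟩
  exact ⟨x, by simpa using hx⟩

end Fermat.Agent.HilbertSiegel
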